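import Mathlib
import Fermat.Agent.MUL.F3.I2.Final

section MergeWrap_Lib_DVRPoints_Completion -- from Lib/DVRPoints/Completion.lean

/-!
# The ring of integers of the completion of a Dedekind domain at a maximal ideal
(owner: helper62)

For a Dedekind domain `R` with fraction field `K` and `v : HeightOneSpectrum R`, Mathlib knows
that `v.adicCompletionIntegers K` is a discrete valuation ring.  We add: the powers of its maximal
ideal are the balls of the valuation, `R` is dense, the residue field is finite when `R ⧸ v` is,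
and it is adically complete.
-/

namespace Fermat.Agent.DVRPoints

open IsDedekindDomain HeightOneSpectrum WithZero IsLocalRing

variable {R : Type*} [CommRing R] [IsDedekindDomain R] {K : Type*} [Field K] [Algebra R K]
  [IsFractionRing R K] (v : HeightOneSpectrum R)

lemma mem_maximalIdeal_iff_valued_lt_one (x : v.adicCompletionIntegers K) :
    x ∈ maximalIdeal (v.adicCompletionIntegers K) ↔ Valued.v (x : v.adicCompletion K) < 1 := by
  rw [mem_maximalIdeal, mem_nonunits_iff, adicCompletionIntegers.isUnit_iff_valued_eq_one]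
  have h1 : Valued.v (x : v.adicCompletion K) ≤ 1 := x.2
  exact ⟨fun h => lt_of_le_of_ne h1 h, fun h => h.ne⟩

lemma lt_one_iff_le_exp_neg_one (x : ℤᵐ⁰) : x < 1 ↔ x ≤ exp (-1 : ℤ) := by
  have h := lt_mul_exp_iff_le (x := x) (y := exp (-1 : ℤ)) exp_ne_zero
  rw [← exp_add] at h
  simpa using h

/-- the valuation of the image of `r : R` in the completion -/
lemma valued_algebraMap (r : R) :
    Valued.v ((algebraMap R (v.adicCompletionIntegers K) r : v.adicCompletionIntegers K) :
      v.adicCompletion K) = v.intValuation r := by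
  rw [algebraMap_adicCompletionIntegers_apply, valuedAdicCompletion_eq_valuation',
    valuation_of_algebraMap]

lemma mem_maximalIdeal_pow_iff_valued_le (x : v.adicCompletionIntegers K) (n : ℕ) :
    x ∈ maximalIdeal (v.adicCompletionIntegers K) ^ n ↔
      Valued.v (x : v.adicCompletion K) ≤ exp (-(n : ℤ)) := by
  obtain ⟨ϖ, hϖ⟩ := intValuation_exists_uniformizer v
  set π : v.adicCompletionIntegers K := algebraMap R _ ϖ with hπ
  have hvπ : Valued.v (π : v.adicCompletion K) = exp (-1 : ℤ) := by
    rw [hπ, valued_algebraMap, hϖ]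
  have hint := adicCompletionIntegers.integers K v
  have hdvd : ∀ (y z : v.adicCompletionIntegers K), y ∣ z ↔
      Valued.v (z : v.adicCompletion K) ≤ Valued.v (y : v.adicCompletion K) :=
    fun y z => hint.dvd_iff_le
  have hmax : maximalIdeal (v.adicCompletionIntegers K) = Ideal.span {π} := by
    ext y
    rw [mem_maximalIdeal_iff_valued_lt_one, Ideal.mem_span_singleton, hdvd, hvπ,
      lt_one_iff_le_exp_neg_one]
  rw [hmax, Ideal.span_singleton_pow, Ideal.mem_span_singleton, hdvd]
  have : Valued.v ((π ^ n : v.adicCompletionIntegers K) : v.adicCompletion K)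
      = exp (-(n : ℤ)) := by
    have h1 : ((π ^ n : v.adicCompletionIntegers K) : v.adicCompletion K)
        = (π : v.adicCompletion K) ^ n := rfl
    rw [h1, map_pow, hvπ, ← exp_nsmul]
    simp
  rw [this]

/-- membership of the image of `r : R` in a power of the maximal ideal -/
lemma algebraMap_mem_maximalIdeal_pow_iff (r : R) (n : ℕ) :
    algebraMap R (v.adicCompletionIntegers K) r ∈ maximalIdeal (v.adicCompletionIntegers K) ^ n ↔
      v.intValuation r ≤ exp (-(n : ℤ)) := by
  rw [mem_maximalIdeal_pow_iff_valued_le, valued_algebraMap]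

/-- an element of `R` whose image has valuation `exp (-n)` -/
lemma exists_valued_algebraMap_eq (n : ℕ) :
    ∃ c : R, Valued.v ((algebraMap R (v.adicCompletionIntegers K) c : v.adicCompletionIntegers K) :
      v.adicCompletion K) = exp (-(n : ℤ)) := by
  obtain ⟨ϖ, hϖ⟩ := intValuation_exists_uniformizer v
  refine ⟨ϖ ^ n, ?_⟩
  rw [valued_algebraMap, map_pow, hϖ, ← exp_nsmul]
  simp

lemma valued_algebraMap_field (k : K) :
    Valued.v (algebraMap K (v.adicCompletion K) k) = v.valuation K k := by
  have hkk : algebraMap K (v.adicCompletion K) k = (k : v.adicCompletion K) := by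
    rw [algebraMap_adicCompletion]; rfl
  rw [hkk, valuedAdicCompletion_eq_valuation']

lemma coe_algebraMap_eq (a : R) :
    ((algebraMap R (v.adicCompletionIntegers K) a : v.adicCompletionIntegers K) :
      v.adicCompletion K) = algebraMap K (v.adicCompletion K) (algebraMap R K a) := by
  rw [algebraMap_adicCompletionIntegers_apply, algebraMap_adicCompletion]; rfl

/-- `R` is dense in the ring of integers of the completion. -/
lemma exists_algebraMap_sub_mem (x : v.adicCompletionIntegers K) (n : ℕ) :
    ∃ a : R, x - algebraMap R (v.adicCompletionIntegers K) a ∈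
      maximalIdeal (v.adicCompletionIntegers K) ^ n := by
  obtain ⟨c, hc⟩ := exists_valued_algebraMap_eq (K := K) v n
  set c' : v.adicCompletion K :=
    ((algebraMap R (v.adicCompletionIntegers K) c : v.adicCompletionIntegers K) :
      v.adicCompletion K) with hc'
  have hc0 : (Valued.v : Valuation (v.adicCompletion K) ℤᵐ⁰).restrict c' ≠ 0 := by
    rw [Ne, Valuation.restrict_eq_zero_iff, hc]
    exact exp_ne_zero
  have hnhds : {y : v.adicCompletion K |
      (Valued.v : Valuation (v.adicCompletion K) ℤᵐ⁰).restrict (y - x) <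
        (Units.mk0 _ hc0 : (MonoidWithZeroHom.ValueGroup₀ _)ˣ).1} ∈
        nhds (x : v.adicCompletion K) :=
    Valued.mem_nhds.2 ⟨Units.mk0 _ hc0, subset_rfl⟩
  obtain ⟨y, ⟨k, rfl⟩, hy⟩ := (denseRange_algebraMap (K := K) v).inter_nhds_nonempty hnhds
  simp only [Units.val_mk0, Set.mem_ofPred_eq, Valuation.restrict_lt_iff] at hy
  rw [hc] at hy
  have hk1 : v.valuation K k ≤ 1 := by
    rw [← valued_algebraMap_field]
    have h1 : algebraMap K (v.adicCompletion K) k
        = (algebraMap K (v.adicCompletion K) k - x) + x := by ring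
    rw [h1]
    refine (Valuation.map_add _ _ _).trans (max_le (hy.le.trans ?_) x.2)
    rw [← exp_zero, exp_le_exp]
    omega
  obtain ⟨a, ha⟩ := exists_valuation_sub_lt_of_integer v hk1
    (Units.mk0 (exp (-(n : ℤ))) exp_ne_zero)
  rw [Units.val_mk0] at ha
  refine ⟨a, ?_⟩
  rw [mem_maximalIdeal_pow_iff_valued_le]
  have h2 : ((x - algebraMap R (v.adicCompletionIntegers K) a : v.adicCompletionIntegers K) :
      v.adicCompletion K) = - ((algebraMap K (v.adicCompletion K) k - x) +
        algebraMap K (v.adicCompletion K) (algebraMap R K a - k)) := by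
    have h4 : ((x - algebraMap R (v.adicCompletionIntegers K) a : v.adicCompletionIntegers K) :
      v.adicCompletion K) = (x : v.adicCompletion K) -
        ((algebraMap R (v.adicCompletionIntegers K) a : v.adicCompletionIntegers K) :
          v.adicCompletion K) := rfl
    rw [h4, coe_algebraMap_eq, map_sub]
    ring
  rw [h2, Valuation.map_neg]
  refine (Valuation.map_add _ _ _).trans (max_le hy.le ?_)
  rw [valued_algebraMap_field]
  exact ha.le

lemma algebraMap_mem_maximalIdeal_iff (r : R) :
    algebraMap R (v.adicCompletionIntegers K) r ∈ maximalIdeal (v.adicCompletionIntegers K) ↔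
      r ∈ v.asIdeal := by
  rw [mem_maximalIdeal_iff_valued_lt_one, valued_algebraMap, intValuation_lt_one_iff_mem]

/-- The residue field of the completion is finite when `R ⧸ v` is. -/
theorem finite_residueField [Finite (R ⧸ v.asIdeal)] :
    Finite (ResidueField (v.adicCompletionIntegers K)) := by
  let f : R →+* ResidueField (v.adicCompletionIntegers K) :=
    (residue (v.adicCompletionIntegers K)).comp (algebraMap R (v.adicCompletionIntegers K))
  have hker : ∀ a ∈ v.asIdeal, f a = 0 := by
    intro a ha
    change residue (v.adicCompletionIntegers K) (algebraMap R _ a) = 0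
    rw [residue_eq_zero_iff, algebraMap_mem_maximalIdeal_iff]
    exact ha
  have hsurj : Function.Surjective (Ideal.Quotient.lift v.asIdeal f hker) := by
    intro y
    obtain ⟨x, rfl⟩ := residue_surjective y
    obtain ⟨a, ha⟩ := exists_algebraMap_sub_mem (K := K) v x 1
    refine ⟨Ideal.Quotient.mk _ a, ?_⟩
    rw [Ideal.Quotient.lift_mk]
    change residue (v.adicCompletionIntegers K) (algebraMap R _ a) = _
    rw [pow_one, ← residue_eq_zero_iff, map_sub, sub_eq_zero] at ha
    exact ha.symm
  exact Finite.of_surjective _ hsurj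

theorem charZero_adicCompletionIntegers [CharZero K] :
    CharZero (v.adicCompletionIntegers K) := by
  have h1 : CharZero (v.adicCompletion K) :=
    (RingHom.charZero_iff (algebraMap K (v.adicCompletion K)).injective).1 inferInstance
  exact (RingHom.charZero_iff (ϕ := algebraMap (v.adicCompletionIntegers K) (v.adicCompletion K))
    (FaithfulSMul.algebraMap_injective _ _)).2 h1

lemma natCast_mem_maximalIdeal (p : ℕ) (hp : (p : R) ∈ v.asIdeal) :
    (p : v.adicCompletionIntegers K) ∈ maximalIdeal (v.adicCompletionIntegers K) := by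
  have := (algebraMap_mem_maximalIdeal_iff (K := K) v (p : R)).2 hp
  rwa [map_natCast] at this

/-- The ring of integers of the completion is adically complete. -/
theorem isAdicComplete_adicCompletionIntegers :
    IsAdicComplete (maximalIdeal (v.adicCompletionIntegers K)) (v.adicCompletionIntegers K) where
  prec' f hf := by
    simp only [smul_eq_mul, Ideal.mul_top, SModEq.sub_mem,
      mem_maximalIdeal_pow_iff_valued_le] at hf ⊢
    set g : ℕ → v.adicCompletion K := fun n => (f n : v.adicCompletion K) with hg
    have hg' : ∀ m n : ℕ, m ≤ n → Valued.v (g m - g n) ≤ exp (-(m : ℤ)) :=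
      fun m n hmn => hf hmn
    have hcauchy : CauchySeq g := by
      rw [CauchySeq, Valued.cauchy_iff]
      refine ⟨inferInstance, fun γ => ?_⟩
      have hγ : (MonoidWithZeroHom.ValueGroup₀.embedding γ.1 : ℤᵐ⁰) ≠ 0 := by
        simp
      obtain ⟨n, hn⟩ := exists_exp_neg_natCast_lt hγ
      refine ⟨g '' Set.Ici n, Filter.image_mem_map (Filter.Ici_mem_atTop n), ?_⟩
      rintro _ ⟨a, ha, rfl⟩ _ ⟨b, hb, rfl⟩
      rw [Valuation.restrict_lt_iff_lt_embedding]
      refine lt_of_le_of_lt ?_ hn
      have h1 : g b - g a = -(g n - g b) + (g n - g a) := by ring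
      rw [h1]
      refine (Valuation.map_add _ _ _).trans (max_le ?_ (hg' n a ha))
      rw [Valuation.map_neg]
      exact hg' n b hb
    obtain ⟨L, hL⟩ := cauchySeq_tendsto_of_complete hcauchy
    have hball : ∀ n : ℕ, Valued.v (g n - L) ≤ exp (-(n : ℤ)) := by
      intro n
      obtain ⟨c, hc⟩ := exists_valued_algebraMap_eq (K := K) v n
      set c' : v.adicCompletion K :=
        ((algebraMap R (v.adicCompletionIntegers K) c : v.adicCompletionIntegers K) :
          v.adicCompletion K) with hc'
      have hclosed : IsClosed {y : v.adicCompletion K |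
          (Valued.v : Valuation (v.adicCompletion K) ℤᵐ⁰).restrict (g n - y) ≤
            (Valued.v : Valuation (v.adicCompletion K) ℤᵐ⁰).restrict c'} :=
        (Valued.isClosed_closedBall (v.adicCompletion K) _).preimage
          (continuous_const.sub continuous_id)
      have hmem := hclosed.mem_of_tendsto hL
        (Filter.eventually_atTop.2 ⟨n, fun m hm => by
          rw [Set.mem_ofPred_eq, Valuation.restrict_le_iff, hc]
          exact hg' n m hm⟩)
      rw [Set.mem_ofPred_eq, Valuation.restrict_le_iff, hc] at hmem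
      exact hmem
    have hLmem : L ∈ v.adicCompletionIntegers K := by
      rw [mem_adicCompletionIntegers]
      have h1 : L = -(g 0 - L) + g 0 := by ring
      rw [h1]
      refine (Valuation.map_add _ _ _).trans (max_le ?_ (f 0).2)
      rw [Valuation.map_neg]
      simpa using hball 0
    exact ⟨⟨L, hLmem⟩, fun n => hball n⟩

end Fermat.Agent.DVRPoints
end MergeWrap_Lib_DVRPoints_Completion

section MergeWrap_Lib_DVRPoints_Separation -- from Lib/DVRPoints/Separation.lean

/-!
# Separation by the completions at the primes dividing `t` in a Dedekind domain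
(owner: helper62)
-/

namespace Fermat.Agent.DVRPoints

open IsDedekindDomain HeightOneSpectrum WithZero IsLocalRing

variable {R : Type*} [CommRing R] [IsDedekindDomain R]

/-- the exponent of `v` in `t` -/
lemma exists_intValuation_eq_exp (v : HeightOneSpectrum R) (t : R) (ht : t ≠ 0) :
    ∃ e : ℕ, v.intValuation t = exp (-(e : ℤ)) :=
  ⟨_, v.intValuation_if_neg ht⟩

/-- An element of a Dedekind domain which is highly divisible by all the primes dividing `t` is
divisible by `t ^ k`. -/
theorem exists_pow_separation (t : R) (ht : t ≠ 0) (k : ℕ) :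
    ∃ m : ℕ, ∀ y : R,
      (∀ v : HeightOneSpectrum R, t ∈ v.asIdeal → v.intValuation y ≤ exp (-(m : ℤ))) →
        ∃ z : R, y = t ^ k * z := by
  classical
  have hfin : {v : HeightOneSpectrum R | v.asIdeal ∣ Ideal.span {t}}.Finite :=
    Ideal.finite_factors (by simpa using ht)
  choose e he using fun v : HeightOneSpectrum R => exists_intValuation_eq_exp v t ht
  refine ⟨k * hfin.toFinset.sup e, fun y hy => ?_⟩
  set K := FractionRing R
  have hx : ∀ v : HeightOneSpectrum R,
      v.valuation K (algebraMap R K y / algebraMap R K (t ^ k)) ≤ 1 := by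
    intro v
    have htk : v.intValuation (t ^ k) ≠ 0 := v.intValuation_ne_zero _ (pow_ne_zero k ht)
    rw [map_div₀, valuation_of_algebraMap, valuation_of_algebraMap,
      div_le_one₀ (zero_lt_iff.2 htk), map_pow]
    by_cases hv : t ∈ v.asIdeal
    · refine (hy v hv).trans ?_
      rw [he v, ← exp_nsmul, exp_le_exp]
      have h1 : e v ≤ hfin.toFinset.sup e := by
        apply Finset.le_sup
        rw [Set.Finite.mem_toFinset, Set.mem_ofPred_eq, Ideal.dvd_span_singleton]
        exact hv
      have h2 : k * e v ≤ k * hfin.toFinset.sup e := Nat.mul_le_mul_left k h1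
      simp only [nsmul_eq_mul, mul_neg, neg_le_neg_iff]
      exact_mod_cast h2
    · rw [intValuation_eq_one_iff.2 hv, one_pow]
      exact v.intValuation_le_one y
  obtain ⟨z, hz⟩ := mem_integers_of_valuation_le_one K _ hx
  refine ⟨z, ?_⟩
  have htk0 : algebraMap R K (t ^ k) ≠ 0 := by
    rw [Ne, map_eq_zero_iff _ (IsFractionRing.injective R K)]
    exact pow_ne_zero k ht
  apply IsFractionRing.injective R K
  rw [map_mul, hz, mul_div_cancel₀ _ htk0]

end Fermat.Agent.DVRPoints
end MergeWrap_Lib_DVRPoints_Separation

section MergeWrap_Lib_DVRPoints_NumberField -- from Lib/DVRPoints/NumberField.lean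

/-!
# Points of a ring in complete discrete valuation rings, from maps to rings of integers
(owner: helper62)

`DVRPt p h`: a ring homomorphism from `h` to a complete discrete valuation ring of characteristic
zero with finite residue field of characteristic `p`.

`DVRSeparation p h`: finitely many such points separate `h` uniformly for the `p`-adic topology.

Main result `dvrSeparation_of_family`: a ring with a finite jointly injective family of ring
homomorphisms to rings of integers of number fields has `DVRSeparation p` for every prime `p`.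
-/

namespace Fermat.Agent.DVRPoints

open IsDedekindDomain HeightOneSpectrum WithZero IsLocalRing NumberField

universe u

/-- A point of the ring `h` in a complete discrete valuation ring of characteristic zero with
finite residue field of characteristic `p`. -/
structure DVRPt (p : ℕ) (h : Type u) [CommRing h] : Type (u + 1) where
  /-- the coefficient ring -/
  O : Type u
  [instCommRing : CommRing O]
  [instIsDomain : IsDomain O]
  [instDVR : IsDiscreteValuationRing O]
  [instComplete : IsAdicComplete (IsLocalRing.maximalIdeal O) O]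
  [instFinite : Finite (IsLocalRing.ResidueField O)]
  [instCharZero : CharZero O]
  hp : (p : O) ∈ IsLocalRing.maximalIdeal O
  /-- the point -/
  χ : h →+* O

attribute [instance] DVRPt.instCommRing DVRPt.instIsDomain DVRPt.instDVR DVRPt.instComplete
  DVRPt.instFinite DVRPt.instCharZero

/-- Finitely many DVR points separate `h` uniformly for the `p`-adic topology. -/
def DVRSeparation (p : ℕ) (h : Type u) [CommRing h] : Prop :=
  ∃ (d : ℕ) (P : Fin d → DVRPt p h), ∀ r : ℕ, ∃ m : ℕ, ∀ X : h,
    (∀ i, (P i).χ X ∈ IsLocalRing.maximalIdeal (P i).O ^ m) → ∃ Y : h, X = (p : h) ^ r * Y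

lemma DVRSeparation.of_finite {p : ℕ} {h : Type u} [CommRing h] {ι : Type*} [Finite ι]
    (P : ι → DVRPt p h)
    (hP : ∀ r : ℕ, ∃ m : ℕ, ∀ X : h,
      (∀ i, (P i).χ X ∈ IsLocalRing.maximalIdeal (P i).O ^ m) → ∃ Y : h, X = (p : h) ^ r * Y) :
    DVRSeparation p h := by
  obtain ⟨d, ⟨e⟩⟩ := Finite.exists_equiv_fin ι
  refine ⟨d, fun i => P (e.symm i), fun r => ?_⟩
  obtain ⟨m, hm⟩ := hP r
  refine ⟨m, fun X hX => hm X fun i => ?_⟩
  have key : ∀ j : ι, j = e.symm (e i) →
      (P j).χ X ∈ IsLocalRing.maximalIdeal (P j).O ^ m := by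
    rintro j rfl
    exact hX (e i)
  exact key i (e.symm_apply_apply i).symm

/-- The point of the ring of integers of a number field at a prime above `p`. -/
noncomputable def DVRPt.ofPlace (p : ℕ) (K : Type u) [Field K] [NumberField K]
    (v : HeightOneSpectrum (𝓞 K)) (hv : (p : 𝓞 K) ∈ v.asIdeal) : DVRPt p (𝓞 K) :=
  haveI : Finite (𝓞 K ⧸ v.asIdeal) := Ideal.finiteQuotientOfFreeOfNeBot v.asIdeal v.ne_bot
  { O := v.adicCompletionIntegers K
    instComplete := isAdicComplete_adicCompletionIntegers v
    instFinite := finite_residueField v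
    instCharZero := charZero_adicCompletionIntegers v
    hp := natCast_mem_maximalIdeal v p hv
    χ := algebraMap (𝓞 K) (v.adicCompletionIntegers K) }

/-- Pull back a point along a ring homomorphism. -/
def DVRPt.comap {p : ℕ} {h h' : Type u} [CommRing h] [CommRing h'] (P : DVRPt p h')
    (φ : h →+* h') : DVRPt p h :=
  { O := P.O
    hp := P.hp
    χ := P.χ.comp φ }

/-- Artin–Rees for `ℤ`-modules and the ideal `(p)`. -/
theorem exists_artinRees_int {N M : Type*} [AddCommGroup N] [AddCommGroup M] [Module.Finite ℤ M]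
    (f : N →+ M) (hf : Function.Injective f) (p : ℕ) :
    ∃ c : ℕ, ∀ (r : ℕ) (x : N), (∃ y : M, f x = (p ^ (r + c) : ℤ) • y) →
      ∃ x' : N, x = (p ^ r : ℤ) • x' := by
  set g : N →ₗ[ℤ] M := f.toIntLinearMap with hg
  obtain ⟨c, hc⟩ := Ideal.exists_pow_inf_eq_pow_smul (Ideal.span {(p : ℤ)}) (LinearMap.range g)
  refine ⟨c, fun r x ⟨y, hy⟩ => ?_⟩
  have h1 : g x ∈ (Ideal.span {(p : ℤ)}) ^ (r + c) • (⊤ : Submodule ℤ M) ⊓ LinearMap.range g := by
    refine ⟨?_, LinearMap.mem_range_self g x⟩
    have : g x = (p ^ (r + c) : ℤ) • y := hy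
    rw [this, Ideal.span_singleton_pow]
    exact Submodule.smul_mem_smul (Ideal.mem_span_singleton_self _) Submodule.mem_top
  rw [hc (r + c) (Nat.le_add_left c r), Nat.add_sub_cancel] at h1
  have h2 : g x ∈ (Ideal.span {(p : ℤ)}) ^ r • LinearMap.range g :=
    Submodule.smul_mono le_rfl inf_le_right h1
  rw [Ideal.span_singleton_pow, Submodule.ideal_span_singleton_smul,
    Submodule.mem_smul_pointwise_iff_exists] at h2
  obtain ⟨_, ⟨x', rfl⟩, hx'⟩ := h2
  refine ⟨x', hf ?_⟩
  have : f ((p ^ r : ℤ) • x') = (p ^ r : ℤ) • f x' := map_zsmul f _ _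
  rw [this]
  exact hx'.symm

/-- A ring with a finite jointly injective family of ring homomorphisms to rings of integers of
number fields is separated by finitely many DVR points, uniformly for the `p`-adic topology. -/
theorem dvrSeparation_of_family {h : Type u} [CommRing h] {ι : Type*} [Finite ι]
    (K : ι → Type u) [∀ j, Field (K j)] [∀ j, NumberField (K j)]
    (φ : ∀ j, h →+* 𝓞 (K j)) (hinj : ∀ X : h, (∀ j, φ j X = 0) → X = 0)
    (p : ℕ) (hp : p.Prime) : DVRSeparation p h := by
  classical
  have hp0 : ∀ j, (p : 𝓞 (K j)) ≠ 0 := fun j => by exact_mod_cast hp.ne_zero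
  have hfib : ∀ j, Finite {v : HeightOneSpectrum (𝓞 (K j)) // (p : 𝓞 (K j)) ∈ v.asIdeal} := by
    intro j
    have hfin : {v : HeightOneSpectrum (𝓞 (K j)) |
        v.asIdeal ∣ Ideal.span {(p : 𝓞 (K j))}}.Finite :=
      Ideal.finite_factors (by simpa using hp0 j)
    have : {v : HeightOneSpectrum (𝓞 (K j)) | (p : 𝓞 (K j)) ∈ v.asIdeal}.Finite := by
      refine hfin.subset fun v hv => ?_
      rw [Set.mem_ofPred_eq, Ideal.dvd_span_singleton]
      exact hv
    exact this.to_subtype
  let P : (Σ j : ι, {v : HeightOneSpectrum (𝓞 (K j)) // (p : 𝓞 (K j)) ∈ v.asIdeal}) → DVRPt p h :=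
    fun a => (DVRPt.ofPlace p (K a.1) a.2.1 a.2.2).comap (φ a.1)
  refine DVRSeparation.of_finite P fun r => ?_
  let f : h →+ (∀ j, 𝓞 (K j)) := (RingHom.pi φ).toAddMonoidHom
  have hf : Function.Injective f := by
    rw [injective_iff_map_eq_zero]
    intro X hX
    exact hinj X fun j => congrFun hX j
  obtain ⟨c, hc⟩ := exists_artinRees_int f hf p
  choose m hm using fun j => exists_pow_separation (p : 𝓞 (K j)) (hp0 j) (r + c)
  obtain ⟨m0, hm0⟩ : ∃ m0, ∀ j, m j ≤ m0 := by
    obtain ⟨m0, hm0⟩ := (Set.finite_range m).bddAbove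
    exact ⟨m0, fun j => hm0 (Set.mem_range_self j)⟩
  refine ⟨m0, fun X hX => ?_⟩
  have hz : ∀ j, ∃ z : 𝓞 (K j), φ j X = (p : 𝓞 (K j)) ^ (r + c) * z := by
    intro j
    apply hm j
    intro v hv
    have h1 : algebraMap (𝓞 (K j)) (v.adicCompletionIntegers (K j)) (φ j X) ∈
        IsLocalRing.maximalIdeal (v.adicCompletionIntegers (K j)) ^ m0 := hX ⟨j, v, hv⟩
    have h2 := (algebraMap_mem_maximalIdeal_pow_iff (K := K j) v (φ j X) m0).1 h1
    refine h2.trans (exp_le_exp.2 ?_)
    have := hm0 j
    omega
  choose z hz using hz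
  obtain ⟨Y, hY⟩ := hc r X ⟨z, by
    funext j
    change φ j X = ((p : ℤ) ^ (r + c) • z) j
    rw [Pi.smul_apply, hz j, zsmul_eq_mul]
    push_cast
    rfl⟩
  refine ⟨Y, ?_⟩
  rw [hY, zsmul_eq_mul]
  push_cast
  rfl

end Fermat.Agent.DVRPoints
end MergeWrap_Lib_DVRPoints_NumberField
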